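import Mathlib
import Fermat.Agent.MUL.Orig.Lib.GaussInt.Lattice
import Fermat.Agent.MUL.Lib.Deuring.Setup
import Fermat.Agent.MUL.Lib.GaussVal.R3Final
import Fermat.Agent.MUL.Lib.RR.OfModularBar
import Fermat.Agent.MUL.Lib.RR.OfModularCFinal

section MergeWrap_Lib_GaussInt_DeuringInst -- from Lib/GaussInt/DeuringInst.lean

set_option autoImplicit false
set_option synthInstance.maxHeartbeats 400000

noncomputable section

namespace Fermat.Agent.GaussInt

open ModularCurve HahnSeries AlgebraicCurve Fermat.Agent.RR Fermat.Agent.Deuring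

variable {K : Type*} [Field K] [Algebra ℚ K]
variable {A : ValuationSubring K} {F₀ : IntermediateField ℚ (LaurentSeries ℚ)} {ℓ : ℕ}

section

variable (h : GaussHyp A F₀ ℓ)
  (Fk : IntermediateField (IsLocalRing.ResidueField A) (LaurentSeries (IsLocalRing.ResidueField A)))
  (hR3 : ∀ f ∈ gaussSub A (laurentBaseChange K F₀),
    gaussResFun A (laurentBaseChange K F₀) f ∈ Fk)
  (hsurj : ∀ y ∈ Fk, ∃ f ∈ gaussSub A (laurentBaseChange K F₀),
    gaussResFun A (laurentBaseChange K F₀) f = y)
  (hF : IsRRField K (laurentBaseChange K F₀))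
  (hFk : IsRRField (IsLocalRing.ResidueField A) Fk)

/-- The Gauss valuation as a constant reduction in the sense of `Deuring.ValSetup`. -/
def gaussValSetup :
    ValSetup K (laurentBaseChange K F₀) (IsLocalRing.ResidueField A) Fk where
  A := A
  Ov := gaussValSub h
  res := IsLocalRing.residue A
  ρ := gaussValResTo h Fk hR3
  hF := hF
  hFk := hFk
  res_surj := IsLocalRing.residue_surjective
  ρ_surj := gaussValResTo_surjective h Fk hR3 hsurj
  mem_Ov_iff := gaussValSub_mem_iff_const h
  ρ_algebraMap := gaussValResTo_algebraMap h Fk hR3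
  ρ_eq_zero_iff := gaussValResTo_eq_zero_iff h Fk hR3
  scale := gaussValSub_scale h

@[simp] theorem gaussValSetup_Ov : (gaussValSetup h Fk hR3 hsurj hF hFk).Ov = gaussValSub h := rfl

@[simp] theorem gaussValSetup_A : (gaussValSetup h Fk hR3 hsurj hF hFk).A = A := rfl

theorem coe_gaussValSetup_red {f : laurentBaseChange K F₀} (hf : f ∈ gaussValSub h) :
    (((gaussValSetup h Fk hR3 hsurj hF hFk).red f : Fk) :
        LaurentSeries (IsLocalRing.ResidueField A)) =
      gaussResFun A (laurentBaseChange K F₀) (f : LaurentSeries K) := by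
  unfold ValSetup.red
  rw [dif_pos (show f ∈ (gaussValSetup h Fk hR3 hsurj hF hFk).Ov from hf)]
  rfl

omit [Algebra ℚ K] in
theorem coe_smul_subfield (g : IsLocalRing.ResidueField A) (y : Fk) :
    ((g • y : Fk) : LaurentSeries (IsLocalRing.ResidueField A)) =
      algebraMap (IsLocalRing.ResidueField A) (LaurentSeries (IsLocalRing.ResidueField A)) g *
        (y : LaurentSeries (IsLocalRing.ResidueField A)) := by
  rw [Algebra.smul_def]
  rfl

/-- The LATTICE property of the Gauss valuation. -/
theorem hasLattice_gaussValSetup : HasLattice (gaussValSetup h Fk hR3 hsurj hF hFk) := by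
  intro W hW
  obtain ⟨n, w, hwW, hwO, hspan, hind⟩ := exists_orthonormal h W hW
  refine ⟨n, w, hwW, hwO, hspan, ?_⟩
  rw [Fintype.linearIndependent_iff]
  intro g hg i
  apply hind g _ i
  have key : ∑ i, algebraMap (IsLocalRing.ResidueField A)
      (LaurentSeries (IsLocalRing.ResidueField A)) (g i) *
        gaussResFun A (laurentBaseChange K F₀) ((w i : laurentBaseChange K F₀) :
          LaurentSeries K) =
      ((∑ i, g i • (gaussValSetup h Fk hR3 hsurj hF hFk).red (w i) : Fk) :
        LaurentSeries (IsLocalRing.ResidueField A)) := by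
    rw [AddSubmonoidClass.coe_finset_sum]
    refine Finset.sum_congr rfl fun j _ => ?_
    rw [coe_smul_subfield, coe_gaussValSetup_red h Fk hR3 hsurj hF hFk (hwO j)]
  rw [key, hg]
  rfl

end

end Fermat.Agent.GaussInt
end
end MergeWrap_Lib_GaussInt_DeuringInst

section MergeWrap_Lib_GaussInt_ModularInst -- from Lib/GaussInt/ModularInst.lean

set_option autoImplicit false
set_option synthInstance.maxHeartbeats 400000

noncomputable section

namespace Fermat.Agent.GaussInt

open ModularCurve HahnSeries AlgebraicCurve Fermat.Agent.RR Fermat.Agent.Deuring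

variable (A : ValuationSubring (AlgebraicClosure ℚ)) (ℓ N : ℕ) [NeZero N]

/-- The residue field of a valuation ring of `ℚ̄` is algebraically closed. -/
theorem isAlgClosed_residue : IsAlgClosed (IsLocalRing.ResidueField A) :=
  Fermat.Agent.FrobTrace.isAlgClosed_residueField A

/-- The residue field of a valuation ring of `ℚ̄` is infinite. -/
theorem infinite_residue : Infinite (IsLocalRing.ResidueField A) :=
  haveI := isAlgClosed_residue A
  IsAlgClosed.instInfinite

variable (hℓ : ℓ.Prime) (hA : A.LiesOverPrime ℓ) (hℓN : ¬ ℓ ∣ N)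

/-- **The Gauss valuation of `F_N = ℚ̄(j(q^d) : d ∣ N)` at a place over `ℓ ∤ N`** as a constant
reduction in the sense of `Deuring.ValSetup`, with residue function field
`F_k = k(j(q^d) : d ∣ N)`. -/
def modularValSetup :
    ValSetup (AlgebraicClosure ℚ) (modularFunctionFieldBar N) (IsLocalRing.ResidueField A)
      (modularFunctionFieldFullC (IsLocalRing.ResidueField A) N) :=
  haveI := isAlgClosed_residue A
  gaussValSetup (gaussHyp_modular N hℓ hA) (modularFunctionFieldFullC (IsLocalRing.ResidueField A) N)
    (Fermat.Agent.GaussVal.gaussResFun_mem_fullC_of_isAlgClosed A ℓ N hℓ hA hℓN)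
    (Fermat.Agent.GaussVal.exists_gaussResFun_eq_of_mem A N)
    (Fermat.Agent.RRMod.isRRField_bar N)
    (Fermat.Agent.RRMod.isRRField_fullC' (IsLocalRing.ResidueField A) N)

@[simp] theorem modularValSetup_A : (modularValSetup A ℓ N hℓ hA hℓN).A = A := rfl

@[simp] theorem modularValSetup_Ov :
    (modularValSetup A ℓ N hℓ hA hℓN).Ov = gaussValSub (gaussHyp_modular N hℓ hA) := rfl

theorem mem_modularValSetup_Ov_iff (f : modularFunctionFieldBar N) :
    f ∈ (modularValSetup A ℓ N hℓ hA hℓN).Ov ↔
      (f : LaurentSeries (AlgebraicClosure ℚ)) ∈ gaussSub A (modularFunctionFieldBar N) :=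
  Iff.rfl

theorem modularValSetup_res :
    (modularValSetup A ℓ N hℓ hA hℓN).res = IsLocalRing.residue A := rfl

/-- The residue map of the modular setup is the residue map of the Gauss ring. -/
theorem coe_modularValSetup_ρ (f : modularFunctionFieldBar N)
    (hf : f ∈ (modularValSetup A ℓ N hℓ hA hℓN).Ov) :
    (((modularValSetup A ℓ N hℓ hA hℓN).ρ ⟨f, hf⟩ :
        modularFunctionFieldFullC (IsLocalRing.ResidueField A) N) :
        LaurentSeries (IsLocalRing.ResidueField A)) =
      gaussResFun A (modularFunctionFieldBar N) (f : LaurentSeries (AlgebraicClosure ℚ)) :=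
  rfl

theorem coe_modularValSetup_red {f : modularFunctionFieldBar N}
    (hf : (f : LaurentSeries (AlgebraicClosure ℚ)) ∈ gaussSub A (modularFunctionFieldBar N)) :
    (((modularValSetup A ℓ N hℓ hA hℓN).red f :
        modularFunctionFieldFullC (IsLocalRing.ResidueField A) N) :
        LaurentSeries (IsLocalRing.ResidueField A)) =
      gaussResFun A (modularFunctionFieldBar N) (f : LaurentSeries (AlgebraicClosure ℚ)) :=
  haveI := isAlgClosed_residue A
  coe_gaussValSetup_red (gaussHyp_modular N hℓ hA) _ _ _ _ _ hf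

/-- `ρ f = 1` in the setup iff the Gauss residue of `f` is `1`. -/
theorem modularValSetup_ρ_eq_one_iff (f : modularFunctionFieldBar N)
    (hf : f ∈ (modularValSetup A ℓ N hℓ hA hℓN).Ov) :
    (modularValSetup A ℓ N hℓ hA hℓN).ρ ⟨f, hf⟩ = 1 ↔
      gaussResFun A (modularFunctionFieldBar N) (f : LaurentSeries (AlgebraicClosure ℚ)) = 1 := by
  rw [← coe_modularValSetup_ρ A ℓ N hℓ hA hℓN f hf]
  constructor
  · intro h
    rw [h]
    rfl
  · intro h
    exact Subtype.ext h

/-- **LATTICE property of the modular Gauss valuation** (orthonormal bases). -/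
theorem hasLattice_modularValSetup : HasLattice (modularValSetup A ℓ N hℓ hA hℓN) :=
  haveI := isAlgClosed_residue A
  hasLattice_gaussValSetup (gaussHyp_modular N hℓ hA) _ _ _ _ _

end Fermat.Agent.GaussInt
end
end MergeWrap_Lib_GaussInt_ModularInst
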